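import Mathlib
import Fermat.Agent.LT.H556.A0
import Fermat.Agent.LT.T8.H864.Local

/-!
# Row LT, tower T8 (leaf MS-EVEN), sub-leaf MS4b (helper51), part A: cutting adelic elements

OFF-MAIN.  On `A0.lean` (helper556) and `T8/H864/Local.lean` (helper864), both verbatim.

* `cut T b : G K →* G K`: the element with the components of `g` at the finite places in `T`
  (ANY set of finite places) and, if `b` holds, at the infinite places; the identity elsewhere.
* `LocLevel 𝔫 v m`: the local condition of `A0.InLevelGroup` at the finite place `v`.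
* `phi_congr`: for a function `φ` on `GL₂(𝔸_K)` which is left invariant under `GL₂(K)` and right
  invariant under the level group, `φ g' = φ g` as soon as, for some `γ ∈ GL₂(K)`, the components
  of `g'` and `γ g` agree at the infinite places and differ by the local level group at the finite
  places.
-/

set_option autoImplicit false
set_option linter.unusedSectionVars false

open IsDedekindDomain NumberField
open scoped MatrixGroups Classical

noncomputable section

namespace Fermat.Agent.LT.H51.MS4

open Fermat.Agent.LT.H556.A0 Fermat.Agent.LT.T8.H864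

variable {K : Type} [Field K] [NumberField K]

/-! ## Cutting an adelic matrix -/

/-- The finite adele with the components of `x` at the places in `T` and the `(i, j)` entry of the
identity matrix at the other places. -/
def cutFinEntry (T : Set (HeightOneSpectrum (𝓞 K))) (i j : Fin 2)
    (x : FiniteAdeleRing (𝓞 K) K) : FiniteAdeleRing (𝓞 K) K :=
  ⟨fun v => if v ∈ T then x v else (1 : Matrix (Fin 2) (Fin 2) (v.adicCompletion K)) i j, by
    filter_upwards [x.2] with v hv
    split_ifs
    · exact hv
    · exact one_apply_mem_integers v i j⟩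

theorem cutFinEntry_apply (T : Set (HeightOneSpectrum (𝓞 K))) (i j : Fin 2)
    (x : FiniteAdeleRing (𝓞 K) K) (v : HeightOneSpectrum (𝓞 K)) :
    cutFinEntry T i j x v
      = if v ∈ T then x v else (1 : Matrix (Fin 2) (Fin 2) (v.adicCompletion K)) i j := rfl

/-- The infinite adele `x` if `b` holds, the `(i, j)` entry of the identity matrix otherwise. -/
def cutInfEntry (b : Prop) (i j : Fin 2) (x : InfiniteAdeleRing K) : InfiniteAdeleRing K :=
  fun w => if b then x w else (1 : Matrix (Fin 2) (Fin 2) w.Completion) i j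

/-- The matrix over the adeles with the components of `A` at the finite places in `T` and (if `b`)
at the infinite places, the identity elsewhere. -/
def cutMat (T : Set (HeightOneSpectrum (𝓞 K))) (b : Prop)
    (A : Matrix (Fin 2) (Fin 2) (Adl K)) : Matrix (Fin 2) (Fin 2) (Adl K) :=
  Matrix.of fun i j => ((cutInfEntry b i j (A i j).1, cutFinEntry T i j (A i j).2) : Adl K)

theorem cutMat_map_evFin (T : Set (HeightOneSpectrum (𝓞 K))) (b : Prop)
    (A : Matrix (Fin 2) (Fin 2) (Adl K)) (v : HeightOneSpectrum (𝓞 K)) :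
    (cutMat T b A).map (evFin v) = if v ∈ T then A.map (evFin v) else 1 := by
  refine Matrix.ext fun i j => ?_
  by_cases h : v ∈ T
  · rw [if_pos h]
    change cutFinEntry T i j (A i j).2 v = (A i j).2 v
    rw [cutFinEntry_apply, if_pos h]
  · rw [if_neg h]
    change cutFinEntry T i j (A i j).2 v = _
    rw [cutFinEntry_apply, if_neg h]

theorem cutMat_map_evInf (T : Set (HeightOneSpectrum (𝓞 K))) (b : Prop)
    (A : Matrix (Fin 2) (Fin 2) (Adl K)) (w : InfinitePlace K) :
    (cutMat T b A).map (evInf w) = if b then A.map (evInf w) else 1 := by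
  refine Matrix.ext fun i j => ?_
  by_cases h : b
  · rw [if_pos h]
    change cutInfEntry b i j (A i j).1 w = (A i j).1 w
    unfold cutInfEntry
    rw [if_pos h]
  · rw [if_neg h]
    change cutInfEntry b i j (A i j).1 w = _
    unfold cutInfEntry
    rw [if_neg h]

theorem cutMat_one (T : Set (HeightOneSpectrum (𝓞 K))) (b : Prop) :
    cutMat (K := K) T b 1 = 1 := by
  refine matA_ext (fun w => ?_) (fun v => ?_)
  · rw [cutMat_map_evInf]
    split_ifs
    · rfl
    · exact (Matrix.map_one _ (map_zero _) (map_one _)).symm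
  · rw [cutMat_map_evFin]
    split_ifs
    · rfl
    · exact (Matrix.map_one _ (map_zero _) (map_one _)).symm

theorem cutMat_mul (T : Set (HeightOneSpectrum (𝓞 K))) (b : Prop)
    (A B : Matrix (Fin 2) (Fin 2) (Adl K)) :
    cutMat T b (A * B) = cutMat T b A * cutMat T b B := by
  refine matA_ext (fun w => ?_) (fun v => ?_)
  · rw [Matrix.map_mul, cutMat_map_evInf, cutMat_map_evInf, cutMat_map_evInf]
    split_ifs
    · rw [Matrix.map_mul]
    · rw [one_mul]
  · rw [Matrix.map_mul, cutMat_map_evFin, cutMat_map_evFin, cutMat_map_evFin]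
    split_ifs
    · rw [Matrix.map_mul]
    · rw [one_mul]

/-- `cutMat T b` as a monoid homomorphism. -/
def cutMatHom (T : Set (HeightOneSpectrum (𝓞 K))) (b : Prop) :
    Matrix (Fin 2) (Fin 2) (Adl K) →* Matrix (Fin 2) (Fin 2) (Adl K) where
  toFun := cutMat T b
  map_one' := cutMat_one T b
  map_mul' := cutMat_mul T b

/-- **Cutting**: the element of `GL₂(𝔸_K)` with the components of `g` at the finite places in `T`
and (if `b`) at the infinite places, the identity elsewhere. -/
def cut (T : Set (HeightOneSpectrum (𝓞 K))) (b : Prop) : G K →* G K :=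
  Units.map (cutMatHom T b)

theorem coe_cut (T : Set (HeightOneSpectrum (𝓞 K))) (b : Prop) (g : G K) :
    ((cut T b g : G K) : Matrix (Fin 2) (Fin 2) (Adl K)) =
      cutMat T b (g : Matrix (Fin 2) (Fin 2) (Adl K)) := rfl

theorem finCompHom_cut (T : Set (HeightOneSpectrum (𝓞 K))) (b : Prop) (g : G K)
    (v : HeightOneSpectrum (𝓞 K)) :
    finCompHom v (cut T b g) = if v ∈ T then finCompHom v g else 1 := by
  refine Units.ext ?_
  rw [coe_finCompHom, finComp_eq_map, coe_cut, cutMat_map_evFin]
  split_ifs
  · rfl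
  · rfl

theorem finCompHom_cut_of_mem {T : Set (HeightOneSpectrum (𝓞 K))} (b : Prop) (g : G K)
    {v : HeightOneSpectrum (𝓞 K)} (hv : v ∈ T) : finCompHom v (cut T b g) = finCompHom v g := by
  rw [finCompHom_cut, if_pos hv]

theorem finCompHom_cut_of_notMem {T : Set (HeightOneSpectrum (𝓞 K))} (b : Prop) (g : G K)
    {v : HeightOneSpectrum (𝓞 K)} (hv : v ∉ T) : finCompHom v (cut T b g) = 1 := by
  rw [finCompHom_cut, if_neg hv]

theorem infCompHom_cut (T : Set (HeightOneSpectrum (𝓞 K))) (b : Prop) (g : G K)
    (w : InfinitePlace K) :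
    infCompHom w (cut T b g) = if b then infCompHom w g else 1 := by
  refine Units.ext ?_
  rw [coe_infCompHom, coe_cut, cutMat_map_evInf]
  split_ifs
  · rfl
  · rfl

theorem infCompHom_cut_true (T : Set (HeightOneSpectrum (𝓞 K))) (g : G K)
    (w : InfinitePlace K) : infCompHom w (cut T True g) = infCompHom w g := by
  rw [infCompHom_cut, if_pos trivial]

theorem infCompHom_cut_false (T : Set (HeightOneSpectrum (𝓞 K))) (g : G K)
    (w : InfinitePlace K) : infCompHom w (cut T False g) = 1 := by
  rw [infCompHom_cut, if_neg not_false]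

/-! ## The local level group -/

/-- The local condition of `A0.InLevelGroup` at the finite place `v`. -/
def LocLevel (𝔫 : Ideal (𝓞 K)) (v : HeightOneSpectrum (𝓞 K))
    (m : GL (Fin 2) (v.adicCompletion K)) : Prop :=
  ∀ i j : Fin 2,
    ((m : Matrix (Fin 2) (Fin 2) (v.adicCompletion K)) - 1) i j ∈ idealClosure 𝔫 v ∧
    (((m⁻¹ : GL (Fin 2) (v.adicCompletion K)) : Matrix (Fin 2) (Fin 2) (v.adicCompletion K)) - 1)
      i j ∈ idealClosure 𝔫 v

theorem zero_mem_idealClosure (𝔫 : Ideal (𝓞 K)) (v : HeightOneSpectrum (𝓞 K)) :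
    (0 : v.adicCompletion K) ∈ idealClosure 𝔫 v := by
  apply subset_closure
  exact ⟨0, 𝔫.zero_mem, by simp⟩

theorem locLevel_one (𝔫 : Ideal (𝓞 K)) (v : HeightOneSpectrum (𝓞 K)) :
    LocLevel 𝔫 v (1 : GL (Fin 2) (v.adicCompletion K)) := by
  intro i j
  constructor
  · rw [Units.val_one, sub_self]
    exact zero_mem_idealClosure 𝔫 v
  · rw [inv_one, Units.val_one, sub_self]
    exact zero_mem_idealClosure 𝔫 v

theorem inLevelGroup_iff (𝔫 : Ideal (𝓞 K)) (u : G K) :
    InLevelGroup 𝔫 u ↔
      (∀ w : InfinitePlace K, infCompHom w u = 1) ∧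
        ∀ v : HeightOneSpectrum (𝓞 K), LocLevel 𝔫 v (finCompHom v u) := by
  unfold InLevelGroup LocLevel
  constructor
  · rintro ⟨h1, h2⟩
    refine ⟨fun w => (trivAtInf_iff_hom w u).1 (h1 w), fun v i j => ?_⟩
    have := h2 v i j
    rw [← map_inv, coe_finCompHom, coe_finCompHom]
    exact this
  · rintro ⟨h1, h2⟩
    refine ⟨fun w => (trivAtInf_iff_hom w u).2 (h1 w), fun v i j => ?_⟩
    have := h2 v i j
    rw [← map_inv, coe_finCompHom, coe_finCompHom] at this
    exact this

/-! ## The congruence lemma -/

/-- The image of a rational matrix in `GL₂(K_v)`. -/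
abbrev ratFin (v : HeightOneSpectrum (𝓞 K)) : GL (Fin 2) K →* GL (Fin 2) (v.adicCompletion K) :=
  Matrix.GeneralLinearGroup.map (algebraMap K (v.adicCompletion K))

/-- The image of a rational matrix in `GL₂(K_w)`. -/
abbrev ratInf (w : InfinitePlace K) : GL (Fin 2) K →* GL (Fin 2) w.Completion :=
  Matrix.GeneralLinearGroup.map (algebraMap K w.Completion)

/-- **Congruence lemma.**  If the components of `g'` are those of `γ g` at the infinite places
and differ from them by the local level group at the finite places, then `φ g' = φ g`. -/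
theorem phi_congr {𝔫 : Ideal (𝓞 K)} {φ : G K → ℂ}
    (hleft : ∀ (γ : GL (Fin 2) K) (g : G K),
      φ (Matrix.GeneralLinearGroup.map (algebraMap K (Adl K)) γ * g) = φ g)
    (hlevel : ∀ u : G K, InLevelGroup 𝔫 u → ∀ g : G K, φ (g * u) = φ g)
    (γ : GL (Fin 2) K) (g g' : G K)
    (hinf : ∀ w : InfinitePlace K, infCompHom w g' = ratInf w γ * infCompHom w g)
    (hfin : ∀ v : HeightOneSpectrum (𝓞 K),
      LocLevel 𝔫 v ((finCompHom v g)⁻¹ * (ratFin v γ)⁻¹ * finCompHom v g')) :
    φ g' = φ g := by
  set u : G K := g⁻¹ * (diagG γ)⁻¹ * g' with hu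
  have hg' : g' = diagG γ * (g * u) := by
    rw [hu]; group
  have hu' : InLevelGroup 𝔫 u := by
    rw [inLevelGroup_iff]
    refine ⟨fun w => ?_, fun v => ?_⟩
    · rw [hu, map_mul, map_mul, map_inv, map_inv, infCompHom_diagG, hinf w]
      group
    · rw [hu, map_mul, map_mul, map_inv, map_inv, finCompHom_diagG]
      exact hfin v
  rw [hg']
  have := hleft γ (g * u)
  rw [diagG_apply, this, hlevel u hu' g]

end Fermat.Agent.LT.H51.MS4

end
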