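import Mathlib
import Fermat.Agent.LT.H51.MS4A

set_option autoImplicit false

open IsDedekindDomain NumberField
open scoped MatrixGroups Classical WithZero

noncomputable section

namespace Fermat.Agent.LT.H51.MS4

open Fermat.Agent.LT.H556.A0 Fermat.Agent.LT.T8.H864

variable {K : Type} [Field K] [NumberField K]

theorem algebraMap_eq_coe (v : HeightOneSpectrum (𝓞 K)) (k : K) :
    algebraMap K (v.adicCompletion K) k = (k : v.adicCompletion K) := by
  rw [HeightOneSpectrum.algebraMap_adicCompletion]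
  rfl

theorem valued_algebraMap (v : HeightOneSpectrum (𝓞 K)) (k : K) :
    Valued.v (algebraMap K (v.adicCompletion K) k) = v.valuation K k := by
  rw [algebraMap_eq_coe, HeightOneSpectrum.valuedAdicCompletion_eq_valuation']

/-- **Closure lemma**: `n₀ 𝒪_v ⊆ closure 𝔫` for `n₀ ∈ 𝔫`. -/
theorem mem_idealClosure_of_le {𝔫 : Ideal (𝓞 K)} (v : HeightOneSpectrum (𝓞 K)) {n₀ : 𝓞 K}
    (hn₀ : n₀ ∈ 𝔫) {x : v.adicCompletion K}
    (hx : Valued.v x ≤ v.valuation K (algebraMap (𝓞 K) K n₀)) : x ∈ idealClosure 𝔫 v := by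
  rcases eq_or_ne n₀ 0 with h0 | h0
  · rw [h0, map_zero, map_zero, le_zero_iff, map_eq_zero] at hx
    rw [hx]
    exact zero_mem_idealClosure 𝔫 v
  have hk0 : (algebraMap (𝓞 K) K n₀) ≠ 0 := by
    rw [Ne, FaithfulSMul.algebraMap_eq_zero_iff]
    exact h0
  have hv0 : v.valuation K (algebraMap (𝓞 K) K n₀) ≠ 0 := by
    rw [Ne, map_eq_zero]
    exact hk0
  unfold idealClosure
  rw [mem_closure_iff_nhds]
  intro t ht
  obtain ⟨γ, hγ⟩ := Valued.mem_nhds.1 ht
  set γ' : ℤᵐ⁰ := MonoidWithZeroHom.ValueGroup₀.embedding γ.1 with hγ'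
  have hγ'0 : γ' ≠ 0 := by
    rw [hγ']
    intro h
    have := MonoidWithZeroHom.ValueGroup₀.embedding_injective (h.trans (map_zero _).symm)
    exact γ.ne_zero this
  have hsub : ∀ y : v.adicCompletion K, Valued.v (y - x) < γ' → y ∈ t := by
    intro y hy
    apply hγ
    exact (Valuation.restrict_lt_iff_lt_embedding _).2 hy
  -- approximate `x` by `k ∈ K`
  have hU1 : {y : v.adicCompletion K | Valued.v (y - x) < γ'} ∈ nhds x := by
    rw [Valued.mem_nhds]
    exact ⟨γ, fun y hy => (Valuation.restrict_lt_iff_lt_embedding _).1 hy⟩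
  have hn₀' : (Valued.v : Valuation (v.adicCompletion K) ℤᵐ⁰).restrict
      (algebraMap K (v.adicCompletion K) (algebraMap (𝓞 K) K n₀)) ≠ 0 := by
    rw [Ne, map_eq_zero, map_eq_zero]
    exact hk0
  have hU2 : {y : v.adicCompletion K | Valued.v (y - x) <
      Valued.v (algebraMap K (v.adicCompletion K) (algebraMap (𝓞 K) K n₀))} ∈ nhds x := by
    rw [Valued.mem_nhds]
    refine ⟨Units.mk0 _ hn₀', fun y hy => ?_⟩
    rw [Units.val_mk0] at hy
    exact (Valuation.restrict_lt_iff _).1 hy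
  obtain ⟨k, hk⟩ := (HeightOneSpectrum.denseRange_algebraMap K v).mem_nhds
    (Filter.inter_mem hU1 hU2)
  have hk1 : Valued.v (algebraMap K (v.adicCompletion K) k - x) < γ' := hk.1
  have hk2 : Valued.v (algebraMap K (v.adicCompletion K) k - x) <
      v.valuation K (algebraMap (𝓞 K) K n₀) := by
    have := hk.2
    rw [Set.mem_ofPred_eq, valued_algebraMap] at this
    exact this
  have hkv : v.valuation K k ≤ v.valuation K (algebraMap (𝓞 K) K n₀) := by
    rw [← valued_algebraMap]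
    have : algebraMap K (v.adicCompletion K) k = (algebraMap K (v.adicCompletion K) k - x) + x := by
      ring
    rw [this]
    exact (Valuation.map_add _ _ _).trans (max_le hk2.le hx)
  -- approximate `k / n₀` by an integer `a`
  have hq : v.valuation K (k / algebraMap (𝓞 K) K n₀) ≤ 1 := by
    rw [map_div₀]
    exact div_le_one_of_le₀ hkv zero_le
  set γ₂ : ℤᵐ⁰ := γ' / v.valuation K (algebraMap (𝓞 K) K n₀) with hγ₂
  have hγ₂0 : γ₂ ≠ 0 := div_ne_zero hγ'0 hv0
  obtain ⟨a, ha⟩ := HeightOneSpectrum.exists_valuation_sub_lt_of_integer v hq (Units.mk0 γ₂ hγ₂0)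
  rw [Units.val_mk0] at ha
  have ha' : v.valuation K (algebraMap (𝓞 K) K (n₀ * a) - k) < γ' := by
    have e : algebraMap (𝓞 K) K (n₀ * a) - k
        = algebraMap (𝓞 K) K n₀ * (algebraMap (𝓞 K) K a - k / algebraMap (𝓞 K) K n₀) := by
      rw [map_mul]
      field_simp
    rw [e, map_mul]
    calc v.valuation K (algebraMap (𝓞 K) K n₀) *
          v.valuation K (algebraMap (𝓞 K) K a - k / algebraMap (𝓞 K) K n₀)
        < v.valuation K (algebraMap (𝓞 K) K n₀) * γ₂ :=
          mul_lt_mul_of_pos_left ha (zero_lt_iff.mpr hv0)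
      _ = γ' := by rw [hγ₂, mul_div_cancel₀ _ hv0]
  refine ⟨algebraMap K (v.adicCompletion K) (algebraMap (𝓞 K) K (n₀ * a)), ?_, ?_⟩
  · apply hsub
    have e : algebraMap K (v.adicCompletion K) (algebraMap (𝓞 K) K (n₀ * a)) - x
        = algebraMap K (v.adicCompletion K) (algebraMap (𝓞 K) K (n₀ * a) - k)
          + (algebraMap K (v.adicCompletion K) k - x) := by
      rw [map_sub]; ring
    rw [e]
    refine lt_of_le_of_lt (Valuation.map_add _ _ _) (max_lt ?_ ?_)
    · rw [valued_algebraMap]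
      exact ha'
    · exact hk1
  · exact ⟨n₀ * a, 𝔫.mul_mem_right a hn₀, rfl⟩

/-! ## Nearness to the identity and conjugation -/

/-- `Y ≡ 1` and `Y⁻¹ ≡ 1` modulo the elements of valuation `≤ c`. -/
def Near (v : HeightOneSpectrum (𝓞 K)) (c : ℤᵐ⁰) (Y : GL (Fin 2) (v.adicCompletion K)) : Prop :=
  ∀ i j : Fin 2,
    Valued.v (((Y : Matrix (Fin 2) (Fin 2) (v.adicCompletion K)) - 1) i j) ≤ c ∧
    Valued.v ((((Y⁻¹ : GL (Fin 2) (v.adicCompletion K)) :
      Matrix (Fin 2) (Fin 2) (v.adicCompletion K)) - 1) i j) ≤ c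

theorem near_one (v : HeightOneSpectrum (𝓞 K)) (c : ℤᵐ⁰) :
    Near v c (1 : GL (Fin 2) (v.adicCompletion K)) := by
  intro i j
  constructor
  · rw [Units.val_one, sub_self, Matrix.zero_apply, map_zero]
    exact zero_le
  · rw [inv_one, Units.val_one, sub_self, Matrix.zero_apply, map_zero]
    exact zero_le

theorem Near.mono {v : HeightOneSpectrum (𝓞 K)} {c c' : ℤᵐ⁰} (h : c ≤ c')
    {Y : GL (Fin 2) (v.adicCompletion K)} (hY : Near v c Y) : Near v c' Y :=
  fun i j => ⟨(hY i j).1.trans h, (hY i j).2.trans h⟩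

theorem Near.inv {v : HeightOneSpectrum (𝓞 K)} {c : ℤᵐ⁰}
    {Y : GL (Fin 2) (v.adicCompletion K)} (hY : Near v c Y) : Near v c Y⁻¹ := by
  intro i j
  refine ⟨(hY i j).2, ?_⟩
  rw [inv_inv]
  exact (hY i j).1

/-- The local level group contains the matrices near the identity. -/
theorem locLevel_of_near {𝔫 : Ideal (𝓞 K)} (v : HeightOneSpectrum (𝓞 K)) {n₀ : 𝓞 K}
    (hn₀ : n₀ ∈ 𝔫) {Y : GL (Fin 2) (v.adicCompletion K)}
    (hY : Near v (v.valuation K (algebraMap (𝓞 K) K n₀)) Y) : LocLevel 𝔫 v Y :=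
  fun i j => ⟨mem_idealClosure_of_le v hn₀ (hY i j).1, mem_idealClosure_of_le v hn₀ (hY i j).2⟩

/-- Ultrametric bound for the entries of a product of three matrices. -/
theorem valued_mul_mul_le {v : HeightOneSpectrum (𝓞 K)}
    (P Y Q : Matrix (Fin 2) (Fin 2) (v.adicCompletion K)) {A c B : ℤᵐ⁰}
    (hP : ∀ i j, Valued.v (P i j) ≤ A) (hY : ∀ i j, Valued.v (Y i j) ≤ c)
    (hQ : ∀ i j, Valued.v (Q i j) ≤ B) (i j : Fin 2) :
    Valued.v ((P * Y * Q) i j) ≤ A * c * B := by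
  rw [Matrix.mul_apply]
  refine Valuation.map_sum_le _ (fun l _ => ?_)
  rw [map_mul]
  refine mul_le_mul' ?_ (hQ l j)
  rw [Matrix.mul_apply]
  refine Valuation.map_sum_le _ (fun k _ => ?_)
  rw [map_mul]
  exact mul_le_mul' (hP i k) (hY k l)

/-- A common bound for the entries of a matrix. -/
theorem exists_entry_bound {v : HeightOneSpectrum (𝓞 K)}
    (P : Matrix (Fin 2) (Fin 2) (v.adicCompletion K)) :
    ∃ A : ℤᵐ⁰, 1 ≤ A ∧ ∀ i j, Valued.v (P i j) ≤ A := by
  obtain ⟨A₀, hA₀⟩ :=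
    (Set.finite_range (fun ij : Fin 2 × Fin 2 => Valued.v (P ij.1 ij.2))).bddAbove
  refine ⟨max 1 A₀, le_max_left _ _, fun i j => le_max_of_le_right ?_⟩
  exact hA₀ ⟨(i, j), rfl⟩

theorem conj_sub_one {v : HeightOneSpectrum (𝓞 K)} (m Y : GL (Fin 2) (v.adicCompletion K)) :
    ((m⁻¹ * Y * m : GL (Fin 2) (v.adicCompletion K)) :
        Matrix (Fin 2) (Fin 2) (v.adicCompletion K)) - 1
      = ((m⁻¹ : GL (Fin 2) (v.adicCompletion K)) : Matrix (Fin 2) (Fin 2) (v.adicCompletion K))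
        * ((Y : Matrix (Fin 2) (Fin 2) (v.adicCompletion K)) - 1)
        * (m : Matrix (Fin 2) (Fin 2) (v.adicCompletion K)) := by
  have h1 : ((m⁻¹ * Y * m : GL (Fin 2) (v.adicCompletion K)) :
        Matrix (Fin 2) (Fin 2) (v.adicCompletion K))
      = ((m⁻¹ : GL (Fin 2) (v.adicCompletion K)) : Matrix (Fin 2) (Fin 2) (v.adicCompletion K))
        * (Y : Matrix (Fin 2) (Fin 2) (v.adicCompletion K))
        * (m : Matrix (Fin 2) (Fin 2) (v.adicCompletion K)) := rfl
  have h2 : ((m⁻¹ : GL (Fin 2) (v.adicCompletion K)) :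
        Matrix (Fin 2) (Fin 2) (v.adicCompletion K))
        * (m : Matrix (Fin 2) (Fin 2) (v.adicCompletion K)) = 1 := by
    rw [← Units.val_mul, inv_mul_cancel, Units.val_one]
  rw [h1, Matrix.mul_sub, Matrix.sub_mul, Matrix.mul_one, h2]

/-- Conjugation by `m` maps a small neighbourhood of the identity into a given one. -/
theorem exists_near_conj (v : HeightOneSpectrum (𝓞 K)) (m : GL (Fin 2) (v.adicCompletion K))
    {c₀ : ℤᵐ⁰} (hc₀ : c₀ ≠ 0) :
    ∃ c : ℤᵐ⁰, c ≠ 0 ∧ c ≤ c₀ ∧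
      ∀ Y : GL (Fin 2) (v.adicCompletion K), Near v c Y → Near v c₀ (m⁻¹ * Y * m) := by
  obtain ⟨A, hA1, hA⟩ := exists_entry_bound
    ((m⁻¹ : GL (Fin 2) (v.adicCompletion K)) : Matrix (Fin 2) (Fin 2) (v.adicCompletion K))
  obtain ⟨B, hB1, hB⟩ := exists_entry_bound
    (m : Matrix (Fin 2) (Fin 2) (v.adicCompletion K))
  have hA0 : A ≠ 0 := (lt_of_lt_of_le zero_lt_one hA1).ne'
  have hB0 : B ≠ 0 := (lt_of_lt_of_le zero_lt_one hB1).ne'
  have hAB1 : 1 ≤ A * B := one_le_mul_of_one_le_of_one_le hA1 hB1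
  refine ⟨c₀ / (A * B), div_ne_zero hc₀ (mul_ne_zero hA0 hB0), ?_, fun Y hY => ?_⟩
  · rw [div_le_iff₀ (lt_of_lt_of_le zero_lt_one hAB1)]
    exact le_mul_of_one_le_right' hAB1
  · have key : A * (c₀ / (A * B)) * B = c₀ := by
      field_simp
    intro i j
    constructor
    · rw [conj_sub_one]
      exact (valued_mul_mul_le _ _ _ hA (fun i j => (hY i j).1) hB i j).trans key.le
    · have e : (m⁻¹ * Y * m)⁻¹ = m⁻¹ * Y⁻¹ * m := by group
      rw [e, conj_sub_one]
      exact (valued_mul_mul_le _ _ _ hA (fun i j => (hY i j).2) hB i j).trans key.le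

end Fermat.Agent.LT.H51.MS4
end
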