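import Mathlib

/-!
# Row LT, tower T8 (Rankin--Selberg input of PAR), leaf MS1 (helper51), OFF-MAIN

**Mean square bound for Hecke eigenvalues from Hecke relations and Bessel's inequality only.**

No Bessel function, no differential equation, no uniqueness of Whittaker functions, no newform
theory.  Abstract setting (Mathlib only):

* `a : ℕ → ℂ` a Hecke sequence: `a 1 = 1`, `a (p n) + b p · [p ∣ n] · a (n / p) = a p · a n` for
  the primes `p ∤ N`;
* `c : ℕ → ℝ → ℂ` the Fourier coefficient functions `c n y` (`n ≥ 1`, `y > 0`) of a bounded function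
  `u (x + i y)`, periodic in `x`: continuous in `y`, Bessel's inequality `∑ ‖c n y‖² ≤ M²`;
* the Fourier coefficients of the Hecke identity
  `√p · a p · u(z) = χ p · ∑_j u((z + j) / p) + b p · (χ p)⁻¹ · u(p z)`, i.e.
  `√p · a p · c n y = χ p · p · c (p n) (y / p) + [p ∣ n] · b p · (χ p)⁻¹ · c (n / p) (p y)`,
  with a completely multiplicative unitary twist `χ` (it appears at principal level);
* some `c k` is not identically zero.

Then `∑_{n ≤ x, (n, N) = 1} ‖a n‖² ≤ C · x`.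

Key point: `c (m n) y = (χ n)⁻¹ · a n · n^{-1/2} · c m (n y)` for `(n, N) = 1` and `m ∣ N^∞`
(`universality`), a consequence of the Hecke relations alone.
-/

set_option autoImplicit false

namespace Fermat.Agent.LT.H51

open Finset

/-- The data of the abstract mean square argument. -/
structure CoeffData (N : ℕ) (a b χ : ℕ → ℂ) (c : ℕ → ℝ → ℂ) (M : ℝ) : Prop where
  a_one : a 1 = 1
  chi_one : χ 1 = 1
  chi_mul : ∀ m n : ℕ, χ (m * n) = χ m * χ n
  chi_norm : ∀ n : ℕ, 0 < n → Nat.Coprime n N → ‖χ n‖ = 1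
  hecke : ∀ p : ℕ, p.Prime → ¬ p ∣ N → ∀ n : ℕ,
    a (p * n) + b p * (if p ∣ n then a (n / p) else 0) = a p * a n
  cont : ∀ n : ℕ, ContinuousOn (c n) (Set.Ioi 0)
  bessel : ∀ y : ℝ, 0 < y → ∀ F : Finset ℕ, ∑ n ∈ F, ‖c n y‖ ^ 2 ≤ M ^ 2
  star : ∀ p : ℕ, p.Prime → ¬ p ∣ N → ∀ n : ℕ, 0 < n → ∀ y : ℝ, 0 < y →
    ((Real.sqrt p : ℝ) : ℂ) * a p * c n y
      = χ p * (p : ℂ) * c (p * n) (y / p)
        + (if p ∣ n then b p * (χ p)⁻¹ * c (n / p) (p * y) else 0)

/-- `m` is composed of primes dividing `N`. -/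
def SmoothFor (N m : ℕ) : Prop := 0 < m ∧ ∀ q : ℕ, q.Prime → q ∣ m → q ∣ N

/-- The complex square root of a natural number. -/
noncomputable def csqrt (n : ℕ) : ℂ := ((Real.sqrt n : ℝ) : ℂ)

theorem csqrt_mul (m n : ℕ) : csqrt (m * n) = csqrt m * csqrt n := by
  unfold csqrt
  rw [Nat.cast_mul, Real.sqrt_mul (Nat.cast_nonneg m), Complex.ofReal_mul]

theorem csqrt_mul_self (n : ℕ) : csqrt n * csqrt n = (n : ℂ) := by
  unfold csqrt
  rw [← Complex.ofReal_mul, Real.mul_self_sqrt (Nat.cast_nonneg n)]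
  simp

theorem csqrt_ne_zero {n : ℕ} (hn : 0 < n) : csqrt n ≠ 0 := by
  unfold csqrt
  rw [Ne, Complex.ofReal_eq_zero]
  exact (Real.sqrt_pos.mpr (Nat.cast_pos.mpr hn)).ne'

theorem norm_csqrt (n : ℕ) : ‖csqrt n‖ = Real.sqrt n := by
  unfold csqrt
  rw [Complex.norm_real, Real.norm_of_nonneg (Real.sqrt_nonneg _)]

section

variable {N : ℕ} {a b χ : ℕ → ℂ} {c : ℕ → ℝ → ℂ} {M : ℝ}

theorem CoeffData.chi_ne_zero (D : CoeffData N a b χ c M) {n : ℕ} (hn : 0 < n)
    (hc : Nat.Coprime n N) : χ n ≠ 0 := by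
  intro h
  have := D.chi_norm n hn hc
  rw [h, norm_zero] at this
  exact zero_ne_one this

/-- A prime not dividing `N` does not divide an `N`-smooth number. -/
theorem SmoothFor.not_dvd {m : ℕ} (hm : SmoothFor N m) {p : ℕ} (hp : p.Prime)
    (hpN : ¬ p ∣ N) : ¬ p ∣ m := fun h => hpN (hm.2 p hp h)

/-- **Universality**: the coefficients of index `m n`, `(n, N) = 1`, are those of index `m`. -/
theorem CoeffData.universality (D : CoeffData N a b χ c M) {m : ℕ} (hm : SmoothFor N m) :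
    ∀ n : ℕ, 0 < n → Nat.Coprime n N → ∀ y : ℝ, 0 < y →
      c (m * n) y = (χ n)⁻¹ * a n * (csqrt n)⁻¹ * c m (n * y) := by
  intro n
  induction n using Nat.strong_induction_on with
  | _ n ih =>
    intro hn hcop y hy
    rcases Nat.lt_or_ge n 2 with h2 | h2
    · -- `n = 1`
      have h1 : n = 1 := by omega
      subst h1
      have hs : csqrt 1 = 1 := by unfold csqrt; simp
      rw [mul_one, D.chi_one, D.a_one, hs]
      simp
    · -- `n = p n'`
      set p := n.minFac with hp_def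
      have hp : p.Prime := Nat.minFac_prime (by omega)
      have hpn : p ∣ n := Nat.minFac_dvd n
      obtain ⟨n', hn'⟩ := hpn
      have hn'0 : 0 < n' := by
        rcases Nat.eq_zero_or_pos n' with h | h
        · rw [h, mul_zero] at hn'; omega
        · exact h
      have hn'lt : n' < n := by
        rw [hn']
        exact lt_mul_of_one_lt_left hn'0 hp.one_lt
      have hpN : ¬ p ∣ N := by
        intro h
        have : p ∣ Nat.gcd n N := Nat.dvd_gcd (Nat.minFac_dvd n) h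
        rw [hcop] at this
        exact hp.one_lt.ne' (Nat.dvd_one.mp this)
      have hcop' : Nat.Coprime n' N := by
        rw [hn'] at hcop
        exact Nat.Coprime.coprime_mul_left hcop
      have hcopp : Nat.Coprime p N := (Nat.Prime.coprime_iff_not_dvd hp).mpr hpN
      have hpm : ¬ p ∣ m := hm.not_dvd hp hpN
      have hp0 : (0 : ℝ) < p := Nat.cast_pos.mpr hp.pos
      have hpy : 0 < (p : ℝ) * y := mul_pos hp0 hy
      have hstar := D.star p hp hpN (m * n') (Nat.mul_pos hm.1 hn'0) ((p : ℝ) * y) hpy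
      have hidx : p * (m * n') = m * n := by rw [hn']; ring
      have hdiv : (p : ℝ) * y / p = y := by field_simp
      rw [hidx, hdiv] at hstar
      have ih1 := ih n' hn'lt hn'0 hcop' ((p : ℝ) * y) hpy
      have harg1 : (n' : ℝ) * ((p : ℝ) * y) = (n : ℝ) * y := by
        rw [hn']; push_cast; ring
      rw [harg1] at ih1
      have hχp : χ p ≠ 0 := D.chi_ne_zero hp.pos hcopp
      have hχn' : χ n' ≠ 0 := D.chi_ne_zero hn'0 hcop'
      have hsp : csqrt p ≠ 0 := csqrt_ne_zero hp.pos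
      have hsn' : csqrt n' ≠ 0 := csqrt_ne_zero hn'0
      have hpc : (p : ℂ) ≠ 0 := Nat.cast_ne_zero.mpr hp.ne_zero
      have hχn : χ n = χ p * χ n' := by rw [hn', D.chi_mul]
      have hsn : csqrt n = csqrt p * csqrt n' := by rw [hn', csqrt_mul]
      have hpp : (p : ℂ) = csqrt p * csqrt p := (csqrt_mul_self p).symm
      have hheck := D.hecke p hp hpN n'
      rw [← hn'] at hheck
      have hsq : ((Real.sqrt p : ℝ) : ℂ) = csqrt p := rfl
      rw [hsq] at hstar
      by_cases hpn' : p ∣ n'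
      · -- `p ∣ n'`
        have hpmn' : p ∣ m * n' := Dvd.dvd.mul_left hpn' m
        rw [if_pos hpmn'] at hstar
        rw [if_pos hpn'] at hheck
        obtain ⟨n'', hn''⟩ := hpn'
        have hn''0 : 0 < n'' := by
          rcases Nat.eq_zero_or_pos n'' with h | h
          · rw [h, mul_zero] at hn''; omega
          · exact h
        have hn''lt : n'' < n := by
          have : n'' < n' := by
            rw [hn'']
            exact lt_mul_of_one_lt_left hn''0 hp.one_lt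
          omega
        have hcop'' : Nat.Coprime n'' N := by
          rw [hn''] at hcop'
          exact Nat.Coprime.coprime_mul_left hcop'
        have hdiv1 : n' / p = n'' := by
          rw [hn'', Nat.mul_div_cancel_left _ hp.pos]
        have hdiv2 : m * n' / p = m * n'' := by
          rw [hn'', ← mul_assoc, mul_comm m p, mul_assoc, Nat.mul_div_cancel_left _ hp.pos]
        rw [hdiv2] at hstar
        rw [hdiv1] at hheck
        have hppy : 0 < (p : ℝ) * ((p : ℝ) * y) := mul_pos hp0 hpy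
        have ih2 := ih n'' hn''lt hn''0 hcop'' ((p : ℝ) * ((p : ℝ) * y)) hppy
        have harg2 : (n'' : ℝ) * ((p : ℝ) * ((p : ℝ) * y)) = (n : ℝ) * y := by
          rw [hn', hn'']; push_cast; ring
        rw [harg2] at ih2
        have hχn'' : χ n'' ≠ 0 := D.chi_ne_zero hn''0 hcop''
        have hsn'' : csqrt n'' ≠ 0 := csqrt_ne_zero hn''0
        have hχn'2 : χ n' = χ p * χ n'' := by rw [hn'', D.chi_mul]
        have hsn'2 : csqrt n' = csqrt p * csqrt n'' := by rw [hn'', csqrt_mul]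
        rw [ih1, ih2] at hstar
        have ha : a n = a p * a n' - b p * a n'' := by
          rw [← hheck]; ring
        rw [hχn, hsn, ha, hχn'2, hsn'2]
        rw [hχn'2, hsn'2] at hstar
        have e1 : χ p * (csqrt p * csqrt p) * c (m * n) y
            = csqrt p * a p * ((χ p * χ n'')⁻¹ * a n' * (csqrt p * csqrt n'')⁻¹ * c m (↑n * y))
              - b p * (χ p)⁻¹ * ((χ n'')⁻¹ * a n'' * (csqrt n'')⁻¹ * c m (↑n * y)) := by
          rw [← hpp, hstar]; ring
        have key : χ p * (csqrt p * csqrt p) * c (m * n) y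
            = χ p * (csqrt p * csqrt p) *
              ((χ p * (χ p * χ n''))⁻¹ * (a p * a n' - b p * a n'')
                * (csqrt p * (csqrt p * csqrt n''))⁻¹ * c m (↑n * y)) := by
          rw [e1]
          field_simp
          try ring
        exact mul_left_cancel₀ (mul_ne_zero hχp (mul_ne_zero hsp hsp)) key
      · -- `p ∤ n'`
        have hpmn' : ¬ p ∣ m * n' := by
          intro h
          rcases (Nat.Prime.dvd_mul hp).mp h with h | h
          · exact hpm h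
          · exact hpn' h
        rw [if_neg hpmn', add_zero] at hstar
        rw [if_neg hpn', mul_zero, add_zero] at hheck
        rw [ih1] at hstar
        rw [hχn, hsn, hheck]
        have e1 : χ p * (csqrt p * csqrt p) * c (m * n) y
            = csqrt p * a p * ((χ n')⁻¹ * a n' * (csqrt n')⁻¹ * c m (↑n * y)) := by
          rw [← hpp, hstar]
        have key : χ p * (csqrt p * csqrt p) * c (m * n) y
            = χ p * (csqrt p * csqrt p) *
              ((χ p * χ n')⁻¹ * (a p * a n') * (csqrt p * csqrt n')⁻¹ * c m (↑n * y)) := by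
          rw [e1]
          field_simp
          try ring
        exact mul_left_cancel₀ (mul_ne_zero hχp (mul_ne_zero hsp hsp)) key

/-- **Reduction to an `N`-smooth index**: if some coefficient function does not vanish
identically, then one of `N`-smooth index does not. -/
theorem CoeffData.exists_smooth (D : CoeffData N a b χ c M) :
    ∀ k : ℕ, 0 < k → (∃ y : ℝ, 0 < y ∧ c k y ≠ 0) →
      ∃ m : ℕ, SmoothFor N m ∧ ∃ y : ℝ, 0 < y ∧ c m y ≠ 0 := by
  intro k
  induction k using Nat.strong_induction_on with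
  | _ k ih =>
    intro hk hne
    by_cases hsm : ∀ q : ℕ, q.Prime → q ∣ k → q ∣ N
    · exact ⟨k, ⟨hk, hsm⟩, hne⟩
    · push Not at hsm
      obtain ⟨p, hp, hpk, hpN⟩ := hsm
      obtain ⟨k', hk'⟩ := hpk
      obtain ⟨y, hy, hcy⟩ := hne
      have hk'0 : 0 < k' := by
        rcases Nat.eq_zero_or_pos k' with h | h
        · rw [h, mul_zero] at hk'; omega
        · exact h
      have hk'lt : k' < k := by
        rw [hk']
        exact lt_mul_of_one_lt_left hk'0 hp.one_lt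
      have hp0 : (0 : ℝ) < p := Nat.cast_pos.mpr hp.pos
      have hpy : 0 < (p : ℝ) * y := mul_pos hp0 hy
      have hcopp : Nat.Coprime p N := (Nat.Prime.coprime_iff_not_dvd hp).mpr hpN
      have hχp : χ p ≠ 0 := D.chi_ne_zero hp.pos hcopp
      have hpc : (p : ℂ) ≠ 0 := Nat.cast_ne_zero.mpr hp.ne_zero
      have hstar := D.star p hp hpN k' hk'0 ((p : ℝ) * y) hpy
      have hdiv : (p : ℝ) * y / p = y := by field_simp
      rw [← hk', hdiv] at hstar
      by_cases h1 : c k' ((p : ℝ) * y) = 0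
      · rw [h1, mul_zero] at hstar
        by_cases hpk' : p ∣ k'
        · rw [if_pos hpk'] at hstar
          have h2 : c (k' / p) ((p : ℝ) * ((p : ℝ) * y)) ≠ 0 := by
            intro h0
            rw [h0, mul_zero, add_zero] at hstar
            exact (mul_ne_zero (mul_ne_zero hχp hpc) hcy) hstar.symm
          have hlt : k' / p < k := lt_of_le_of_lt (Nat.div_le_self _ _) hk'lt
          have hpos : 0 < k' / p := Nat.div_pos (Nat.le_of_dvd hk'0 hpk') hp.pos
          exact ih (k' / p) hlt hpos ⟨_, mul_pos hp0 hpy, h2⟩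
        · rw [if_neg hpk', add_zero] at hstar
          exact absurd hstar.symm (mul_ne_zero (mul_ne_zero hχp hpc) hcy)
      · exact ih k' hk'lt hk'0 ⟨_, hpy, h1⟩

end

/-- A continuous function which does not vanish at a point is bounded below on an interval. -/
theorem exists_interval_of_continuousOn {f : ℝ → ℂ} (hf : ContinuousOn f (Set.Ioi 0)) {y : ℝ}
    (hy : 0 < y) (hne : f y ≠ 0) :
    ∃ t₁ t₂ δ : ℝ, 0 < t₁ ∧ t₁ < t₂ ∧ 0 < δ ∧ ∀ t : ℝ, t₁ ≤ t → t ≤ t₂ → δ ≤ ‖f t‖ := by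
  have hc : ContinuousAt f y := hf.continuousAt (Ioi_mem_nhds hy)
  have hpos : 0 < ‖f y‖ := norm_pos_iff.mpr hne
  obtain ⟨ε, hε, hball⟩ := Metric.continuousAt_iff.mp hc (‖f y‖ / 2) (by positivity)
  refine ⟨y, y + ε / 2, ‖f y‖ / 2, hy, by linarith, by positivity, fun t ht1 ht2 => ?_⟩
  have hd : dist t y < ε := by
    rw [Real.dist_eq, abs_lt]
    constructor <;> linarith
  have h := hball hd
  rw [dist_eq_norm] at h
  have h2 : ‖f y‖ ≤ ‖f t‖ + ‖f t - f y‖ := by
    have := norm_sub_le (f t) (f t - f y)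
    rw [sub_sub_cancel] at this
    exact this
  linarith

section

variable {N : ℕ} {a b χ : ℕ → ℂ} {c : ℕ → ℝ → ℂ} {M : ℝ}

/-- **Block bound**: Bessel's inequality at the height `t₁ / X`. -/
theorem CoeffData.block (D : CoeffData N a b χ c M) {m : ℕ} (hm : SmoothFor N m)
    {t₁ t₂ δ : ℝ} (ht₁ : 0 < t₁) (ht : t₁ < t₂) (hδ : 0 < δ)
    (hlow : ∀ t : ℝ, t₁ ≤ t → t ≤ t₂ → δ ≤ ‖c m t‖)
    (X : ℝ) (hX : 0 < X) (G : Finset ℕ)
    (hG : ∀ n ∈ G, Nat.Coprime n N ∧ X ≤ (n : ℝ) ∧ (n : ℝ) ≤ (t₂ / t₁) * X) :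
    ∑ n ∈ G, ‖a n‖ ^ 2 ≤ (t₂ / t₁) * X * (M ^ 2 / δ ^ 2) := by
  have ht₂ : 0 < t₂ := ht₁.trans ht
  have hκ : 0 < t₂ / t₁ := div_pos ht₂ ht₁
  set y : ℝ := t₁ / X with hy_def
  have hy : 0 < y := div_pos ht₁ hX
  have hpos : ∀ n ∈ G, 0 < n := by
    intro n hn
    have h := (hG n hn).2.1
    have : (0 : ℝ) < n := lt_of_lt_of_le hX h
    exact_mod_cast this
  -- lower bound for the coefficients
  have hterm : ∀ n ∈ G, ‖a n‖ ^ 2 * (δ ^ 2 / ((t₂ / t₁) * X)) ≤ ‖c (m * n) y‖ ^ 2 := by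
    intro n hn
    obtain ⟨hcop, hXn, hnX⟩ := hG n hn
    have hn0 : 0 < n := hpos n hn
    have hnR : (0 : ℝ) < n := Nat.cast_pos.mpr hn0
    have huni := D.universality hm n hn0 hcop y hy
    have hny1 : t₁ ≤ (n : ℝ) * y := by
      rw [hy_def, ← mul_div_assoc, le_div_iff₀ hX]
      nlinarith
    have hny2 : (n : ℝ) * y ≤ t₂ := by
      rw [hy_def, ← mul_div_assoc, div_le_iff₀ hX]
      have h1 : (n : ℝ) * t₁ ≤ (t₂ / t₁ * X) * t₁ := mul_le_mul_of_nonneg_right hnX ht₁.le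
      have h2 : (t₂ / t₁ * X) * t₁ = t₂ * X := by field_simp
      linarith
    have hlw := hlow _ hny1 hny2
    have hnorm : ‖c (m * n) y‖ = ‖a n‖ * (Real.sqrt n)⁻¹ * ‖c m ((n : ℝ) * y)‖ := by
      rw [huni, norm_mul, norm_mul, norm_mul, norm_inv, norm_inv, D.chi_norm n hn0 hcop,
        norm_csqrt, inv_one, one_mul]
    rw [hnorm, mul_pow, mul_pow, inv_pow, Real.sq_sqrt hnR.le]
    have h3 : δ ^ 2 ≤ ‖c m ((n : ℝ) * y)‖ ^ 2 := by
      apply pow_le_pow_left₀ hδ.le hlw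
    have h4 : ((t₂ / t₁) * X)⁻¹ ≤ ((n : ℝ))⁻¹ := by
      rw [inv_le_inv₀ (mul_pos hκ hX) hnR]
      exact hnX
    have h5 : 0 ≤ ‖a n‖ ^ 2 := by positivity
    calc ‖a n‖ ^ 2 * (δ ^ 2 / ((t₂ / t₁) * X))
        = ‖a n‖ ^ 2 * ((t₂ / t₁) * X)⁻¹ * δ ^ 2 := by rw [div_eq_mul_inv]; ring
      _ ≤ ‖a n‖ ^ 2 * ((n : ℝ))⁻¹ * ‖c m ((n : ℝ) * y)‖ ^ 2 := by
          apply mul_le_mul _ h3 (by positivity) (by positivity)
          exact mul_le_mul_of_nonneg_left h4 h5
  -- Bessel
  have hinj : Set.InjOn (fun n : ℕ => m * n) (G : Set ℕ) := by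
    intro x _ z _ h
    exact Nat.eq_of_mul_eq_mul_left hm.1 h
  have hbes := D.bessel y hy (G.image (fun n : ℕ => m * n))
  rw [Finset.sum_image hinj] at hbes
  have hsum : ∑ n ∈ G, ‖a n‖ ^ 2 * (δ ^ 2 / ((t₂ / t₁) * X)) ≤ M ^ 2 :=
    (Finset.sum_le_sum hterm).trans hbes
  rw [← Finset.sum_mul] at hsum
  have hc0 : 0 < δ ^ 2 / ((t₂ / t₁) * X) := div_pos (by positivity) (mul_pos hκ hX)
  have h6 : ∑ n ∈ G, ‖a n‖ ^ 2 ≤ M ^ 2 / (δ ^ 2 / ((t₂ / t₁) * X)) := by
    rw [le_div_iff₀ hc0]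
    exact hsum
  have h7 : M ^ 2 / (δ ^ 2 / ((t₂ / t₁) * X)) = (t₂ / t₁) * X * (M ^ 2 / δ ^ 2) := by
    field_simp
  rw [h7] at h6
  exact h6

/-- The partial sums of `‖a n‖²` over the integers prime to `N`. -/
noncomputable def msSum (N : ℕ) (a : ℕ → ℂ) (x : ℝ) : ℝ :=
  ∑ n ∈ (Finset.Icc 1 ⌊x⌋₊).filter (fun n => Nat.Coprime n N), ‖a n‖ ^ 2

theorem msSum_nonneg (N : ℕ) (a : ℕ → ℂ) (x : ℝ) : 0 ≤ msSum N a x :=
  Finset.sum_nonneg fun _ _ => by positivity

theorem msSum_eq_zero (N : ℕ) (a : ℕ → ℂ) {x : ℝ} (hx : x < 1) : msSum N a x = 0 := by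
  unfold msSum
  have : ⌊x⌋₊ = 0 := Nat.floor_eq_zero.mpr hx
  rw [this]
  simp

/-- One step of the dyadic induction. -/
theorem CoeffData.msSum_step (D : CoeffData N a b χ c M) {m : ℕ} (hm : SmoothFor N m)
    {t₁ t₂ δ : ℝ} (ht₁ : 0 < t₁) (ht : t₁ < t₂) (hδ : 0 < δ)
    (hlow : ∀ t : ℝ, t₁ ≤ t → t ≤ t₂ → δ ≤ ‖c m t‖) (x : ℝ) (hx : 0 < x) :
    msSum N a x ≤ msSum N a (x / (t₂ / t₁)) + x * (M ^ 2 / δ ^ 2) := by
  classical
  have ht₂ : 0 < t₂ := ht₁.trans ht
  have hκ : 0 < t₂ / t₁ := div_pos ht₂ ht₁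
  have hκ1 : 1 < t₂ / t₁ := (one_lt_div ht₁).mpr ht
  set X : ℝ := x / (t₂ / t₁) with hX_def
  have hX : 0 < X := div_pos hx hκ
  have hκX : (t₂ / t₁) * X = x := by rw [hX_def]; field_simp
  set G : Finset ℕ := (Finset.Ioc ⌊X⌋₊ ⌊x⌋₊).filter (fun n => Nat.Coprime n N) with hG_def
  have hG : ∀ n ∈ G, Nat.Coprime n N ∧ X ≤ (n : ℝ) ∧ (n : ℝ) ≤ (t₂ / t₁) * X := by
    intro n hn
    rw [hG_def, Finset.mem_filter, Finset.mem_Ioc] at hn
    obtain ⟨⟨h1, h2⟩, h3⟩ := hn
    refine ⟨h3, ?_, ?_⟩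
    · exact (Nat.lt_of_floor_lt h1).le
    · rw [hκX]
      exact (Nat.le_floor_iff hx.le).mp h2
  have hblock := D.block hm ht₁ ht hδ hlow X hX G hG
  rw [hκX] at hblock
  have hsub : (Finset.Icc 1 ⌊x⌋₊).filter (fun n => Nat.Coprime n N)
      ⊆ (Finset.Icc 1 ⌊X⌋₊).filter (fun n => Nat.Coprime n N) ∪ G := by
    intro n hn
    rw [Finset.mem_filter, Finset.mem_Icc] at hn
    rw [Finset.mem_union, Finset.mem_filter, Finset.mem_Icc, hG_def, Finset.mem_filter,
      Finset.mem_Ioc]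
    by_cases h : n ≤ ⌊X⌋₊
    · exact Or.inl ⟨⟨hn.1.1, h⟩, hn.2⟩
    · exact Or.inr ⟨⟨by omega, hn.1.2⟩, hn.2⟩
  unfold msSum
  calc ∑ n ∈ (Finset.Icc 1 ⌊x⌋₊).filter (fun n => Nat.Coprime n N), ‖a n‖ ^ 2
      ≤ ∑ n ∈ (Finset.Icc 1 ⌊X⌋₊).filter (fun n => Nat.Coprime n N) ∪ G, ‖a n‖ ^ 2 :=
        Finset.sum_le_sum_of_subset_of_nonneg hsub (fun _ _ _ => by positivity)
    _ ≤ ∑ n ∈ (Finset.Icc 1 ⌊X⌋₊).filter (fun n => Nat.Coprime n N), ‖a n‖ ^ 2
          + ∑ n ∈ G, ‖a n‖ ^ 2 := by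
        have h := Finset.sum_union_inter (s₁ := (Finset.Icc 1 ⌊X⌋₊).filter (fun n => Nat.Coprime n N))
          (s₂ := G) (f := fun n => ‖a n‖ ^ 2)
        have h0 : 0 ≤ ∑ n ∈ (Finset.Icc 1 ⌊X⌋₊).filter (fun n => Nat.Coprime n N) ∩ G,
            ‖a n‖ ^ 2 := Finset.sum_nonneg fun _ _ => by positivity
        linarith
    _ ≤ ∑ n ∈ (Finset.Icc 1 ⌊X⌋₊).filter (fun n => Nat.Coprime n N), ‖a n‖ ^ 2
          + x * (M ^ 2 / δ ^ 2) := by linarith

/-- **The mean square bound**, real form. -/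
theorem CoeffData.msSum_le (D : CoeffData N a b χ c M)
    (hne : ∃ k : ℕ, 0 < k ∧ ∃ y : ℝ, 0 < y ∧ c k y ≠ 0) :
    ∃ C : ℝ, 0 ≤ C ∧ ∀ x : ℝ, 0 ≤ x → msSum N a x ≤ C * x := by
  obtain ⟨k, hk, hky⟩ := hne
  obtain ⟨m, hm, y, hy, hmy⟩ := D.exists_smooth k hk hky
  obtain ⟨t₁, t₂, δ, ht₁, ht, hδ, hlow⟩ := exists_interval_of_continuousOn (D.cont m) hy hmy
  have ht₂ : 0 < t₂ := ht₁.trans ht
  have hκ : 0 < t₂ / t₁ := div_pos ht₂ ht₁
  have hκ1 : 1 < t₂ / t₁ := (one_lt_div ht₁).mpr ht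
  set κ : ℝ := t₂ / t₁ with hκ_def
  set A : ℝ := M ^ 2 / δ ^ 2 with hA_def
  have hA : 0 ≤ A := by positivity
  have hC : 0 ≤ A * κ / (κ - 1) := by
    apply div_nonneg (mul_nonneg hA hκ.le)
    linarith
  refine ⟨A * κ / (κ - 1), hC, ?_⟩
  have key : ∀ j : ℕ, ∀ x : ℝ, 0 ≤ x → x < κ ^ j → msSum N a x ≤ A * κ / (κ - 1) * x := by
    intro j
    induction j with
    | zero =>
      intro x hx0 hx
      rw [pow_zero] at hx
      rw [msSum_eq_zero N a hx]
      exact mul_nonneg hC hx0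
    | succ j ih =>
      intro x hx0 hx
      rcases lt_or_ge x 1 with h1 | h1
      · rw [msSum_eq_zero N a h1]
        exact mul_nonneg hC hx0
      · have hxpos : 0 < x := lt_of_lt_of_le one_pos h1
        have hstep : msSum N a x ≤ msSum N a (x / κ) + x * A :=
          D.msSum_step hm ht₁ ht hδ hlow x hxpos
        have hxk : x / κ < κ ^ j := by
          rw [div_lt_iff₀ hκ]
          rw [pow_succ] at hx
          exact hx
        have hih := ih (x / κ) (div_nonneg hx0 hκ.le) hxk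
        have hκ0 : κ - 1 ≠ 0 := by linarith
        have e : A * κ / (κ - 1) * (x / κ) + x * A = A * κ / (κ - 1) * x := by
          field_simp
          ring
        linarith
  intro x hx
  obtain ⟨j, hj⟩ := pow_unbounded_of_one_lt x hκ1
  exact key j x hx hj

/-- The sequence `a` depleted at `N` (and at `0`). -/
noncomputable def depleted (N : ℕ) (a : ℕ → ℂ) : ℕ → ℂ := by
  classical
  exact fun n => if 0 < n ∧ Nat.Coprime n N then a n else 0

theorem depleted_of_coprime (N : ℕ) (a : ℕ → ℂ) {n : ℕ} (hn : 0 < n) (hc : Nat.Coprime n N) :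
    depleted N a n = a n := by
  unfold depleted
  rw [if_pos ⟨hn, hc⟩]

theorem depleted_of_not (N : ℕ) (a : ℕ → ℂ) {n : ℕ} (h : ¬ (0 < n ∧ Nat.Coprime n N)) :
    depleted N a n = 0 := by
  unfold depleted
  rw [if_neg h]

/-- The depleted sequence still satisfies the Hecke relations at the primes `p ∤ N`. -/
theorem depleted_hecke (N : ℕ) (a b : ℕ → ℂ)
    (hrel : ∀ p : ℕ, p.Prime → ¬ p ∣ N → ∀ n : ℕ,
      a (p * n) + b p * (if p ∣ n then a (n / p) else 0) = a p * a n)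
    (p : ℕ) (hp : p.Prime) (hpN : ¬ p ∣ N) (n : ℕ) :
    depleted N a (p * n) + b p * (if p ∣ n then depleted N a (n / p) else 0)
      = depleted N a p * depleted N a n := by
  have hcopp : Nat.Coprime p N := (Nat.Prime.coprime_iff_not_dvd hp).mpr hpN
  by_cases hn : 0 < n ∧ Nat.Coprime n N
  · obtain ⟨hn0, hcop⟩ := hn
    rw [depleted_of_coprime N a (Nat.mul_pos hp.pos hn0) (Nat.Coprime.mul_left hcopp hcop),
      depleted_of_coprime N a hp.pos hcopp, depleted_of_coprime N a hn0 hcop, ← hrel p hp hpN n]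
    congr 2
    by_cases hpn : p ∣ n
    · rw [if_pos hpn, if_pos hpn]
      have hpos : 0 < n / p := Nat.div_pos (Nat.le_of_dvd hn0 hpn) hp.pos
      have hc' : Nat.Coprime (n / p) N := Nat.Coprime.coprime_dvd_left (Nat.div_dvd_of_dvd hpn) hcop
      rw [depleted_of_coprime N a hpos hc']
    · rw [if_neg hpn, if_neg hpn]
  · have h1 : ¬ (0 < p * n ∧ Nat.Coprime (p * n) N) := by
      rintro ⟨h0, hc⟩
      exact hn ⟨Nat.pos_of_mul_pos_left h0, Nat.Coprime.coprime_mul_left hc⟩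
    rw [depleted_of_not N a h1, depleted_of_not N a hn, mul_zero, zero_add]
    by_cases hpn : p ∣ n
    · rw [if_pos hpn]
      have h2 : ¬ (0 < n / p ∧ Nat.Coprime (n / p) N) := by
        rintro ⟨h0, hc⟩
        apply hn
        have hnp : n = p * (n / p) := (Nat.mul_div_cancel' hpn).symm
        refine ⟨?_, ?_⟩
        · rw [hnp]; exact Nat.mul_pos hp.pos h0
        · rw [hnp]; exact Nat.Coprime.mul_left hcopp hc
      rw [depleted_of_not N a h2, mul_zero]
    · rw [if_neg hpn, mul_zero]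

/-- **MS1: the mean square bound** in the form of `MSBound` for the depleted Hecke sequence. -/
theorem CoeffData.msBound (D : CoeffData N a b χ c M)
    (hne : ∃ k : ℕ, 0 < k ∧ ∃ y : ℝ, 0 < y ∧ c k y ≠ 0) :
    ∃ C : ℝ, 0 ≤ C ∧ ∀ x : ℕ, 1 ≤ x →
      ∑ n ∈ Finset.range (x + 1), ‖depleted N a n‖ ^ 2 ≤ C * (x : ℝ) := by
  classical
  obtain ⟨C, hC, h⟩ := D.msSum_le hne
  refine ⟨C, hC, fun x _ => ?_⟩
  have hx := h (x : ℝ) (Nat.cast_nonneg x)
  unfold msSum at hx
  rw [Nat.floor_natCast] at hx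
  refine le_trans (le_of_eq ?_) hx
  rw [Finset.sum_filter]
  have hsub : Finset.Icc 1 x ⊆ Finset.range (x + 1) := by
    intro n hn
    rw [Finset.mem_Icc] at hn
    rw [Finset.mem_range]
    omega
  rw [← Finset.sum_subset hsub]
  · refine Finset.sum_congr rfl fun n hn => ?_
    rw [Finset.mem_Icc] at hn
    by_cases hc : Nat.Coprime n N
    · rw [if_pos hc, depleted_of_coprime N a (by omega) hc]
    · rw [if_neg hc, depleted_of_not N a (fun h => hc h.2), norm_zero]
      simp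
  · intro n hn hn'
    rw [Finset.mem_range] at hn
    rw [Finset.mem_Icc] at hn'
    have hn0 : n = 0 := by omega
    subst hn0
    rw [depleted_of_not N a (fun h => by omega), norm_zero]
    simp

end

end Fermat.Agent.LT.H51
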