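import Mathlib
import Fermat.Agent.LT.H51.MS4B

set_option autoImplicit false

open IsDedekindDomain NumberField
open scoped MatrixGroups Classical WithZero

noncomputable section

namespace Fermat.Agent.LT.H51.MS4

open Fermat.Agent.LT.H556.A0 Fermat.Agent.LT.T8.H864

variable {K : Type} [Field K] [NumberField K]

/-! ## Integrality at almost all places -/

/-- `m` and `m⁻¹` have integral entries. -/
def IntegralBoth (v : HeightOneSpectrum (𝓞 K)) (m : GL (Fin 2) (v.adicCompletion K)) : Prop :=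
  ∀ i j : Fin 2,
    Valued.v ((m : Matrix (Fin 2) (Fin 2) (v.adicCompletion K)) i j) ≤ 1 ∧
    Valued.v (((m⁻¹ : GL (Fin 2) (v.adicCompletion K)) :
      Matrix (Fin 2) (Fin 2) (v.adicCompletion K)) i j) ≤ 1

theorem integralBoth_one (v : HeightOneSpectrum (𝓞 K)) :
    IntegralBoth v (1 : GL (Fin 2) (v.adicCompletion K)) := by
  intro i j
  have h : Valued.v ((1 : Matrix (Fin 2) (Fin 2) (v.adicCompletion K)) i j) ≤ 1 :=
    (HeightOneSpectrum.mem_adicCompletionIntegers (R := 𝓞 K) (K := K) (v := v)).1 (one_apply_mem_integers v i j)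
  refine ⟨?_, ?_⟩
  · rw [Units.val_one]; exact h
  · rw [inv_one, Units.val_one]; exact h

/-- The components of an element of `GL₂(𝔸_K)` are integral, with integral inverse, at almost all
finite places. -/
theorem finite_not_integralBoth (g : G K) :
    {v : HeightOneSpectrum (𝓞 K) | ¬ IntegralBoth v (finCompHom v g)}.Finite := by
  have h1 : ∀ i j : Fin 2, ∀ᶠ v : HeightOneSpectrum (𝓞 K) in Filter.cofinite,
      ((g : Matrix (Fin 2) (Fin 2) (Adl K)) i j).2 v ∈ v.adicCompletionIntegers K :=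
    fun i j => ((g : Matrix (Fin 2) (Fin 2) (Adl K)) i j).2.2
  have h2 : ∀ i j : Fin 2, ∀ᶠ v : HeightOneSpectrum (𝓞 K) in Filter.cofinite,
      (((g⁻¹ : G K) : Matrix (Fin 2) (Fin 2) (Adl K)) i j).2 v ∈ v.adicCompletionIntegers K :=
    fun i j => (((g⁻¹ : G K) : Matrix (Fin 2) (Fin 2) (Adl K)) i j).2.2
  have h3 : ∀ᶠ v : HeightOneSpectrum (𝓞 K) in Filter.cofinite,
      ∀ i j : Fin 2,
        ((g : Matrix (Fin 2) (Fin 2) (Adl K)) i j).2 v ∈ v.adicCompletionIntegers K ∧
        (((g⁻¹ : G K) : Matrix (Fin 2) (Fin 2) (Adl K)) i j).2 v ∈ v.adicCompletionIntegers K := by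
    rw [Filter.eventually_all]
    intro i
    rw [Filter.eventually_all]
    intro j
    exact (h1 i j).and (h2 i j)
  rw [Filter.eventually_cofinite] at h3
  refine h3.subset fun v hv => ?_
  intro hall
  apply hv
  intro i j
  have := hall i j
  refine ⟨(HeightOneSpectrum.mem_adicCompletionIntegers (R := 𝓞 K) (K := K) (v := v)).1 this.1, ?_⟩
  rw [← map_inv]
  exact (HeightOneSpectrum.mem_adicCompletionIntegers (R := 𝓞 K) (K := K) (v := v)).1 this.2

/-- Conjugation by an integral matrix with integral inverse preserves nearness. -/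
theorem near_conj_of_integralBoth {v : HeightOneSpectrum (𝓞 K)}
    {m : GL (Fin 2) (v.adicCompletion K)} (hm : IntegralBoth v m) {c : ℤᵐ⁰}
    {Y : GL (Fin 2) (v.adicCompletion K)} (hY : Near v c Y) : Near v c (m⁻¹ * Y * m) := by
  intro i j
  constructor
  · rw [conj_sub_one]
    refine (valued_mul_mul_le _ _ _ (fun i j => (hm i j).2) (fun i j => (hY i j).1)
      (fun i j => (hm i j).1) i j).trans ?_
    rw [one_mul, mul_one]
  · have e : (m⁻¹ * Y * m)⁻¹ = m⁻¹ * Y⁻¹ * m := by group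
    rw [e, conj_sub_one]
    refine (valued_mul_mul_le _ _ _ (fun i j => (hm i j).2) (fun i j => (hY i j).2)
      (fun i j => (hm i j).1) i j).trans ?_
    rw [one_mul, mul_one]

/-! ## Valuations of natural numbers -/

theorem valuation_natCast_le_one (v : HeightOneSpectrum (𝓞 K)) (n : ℕ) :
    v.valuation K (n : K) ≤ 1 := by
  have : (n : K) = algebraMap (𝓞 K) K (n : 𝓞 K) := by simp
  rw [this]
  exact v.valuation_le_one _

theorem valuation_intCast_le_one (v : HeightOneSpectrum (𝓞 K)) (n : ℤ) :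
    v.valuation K (n : K) ≤ 1 := by
  have : (n : K) = algebraMap (𝓞 K) K (n : 𝓞 K) := by simp
  rw [this]
  exact v.valuation_le_one _

theorem valuation_natCast_lt_one_iff (v : HeightOneSpectrum (𝓞 K)) (n : ℕ) :
    v.valuation K (n : K) < 1 ↔ (n : 𝓞 K) ∈ v.asIdeal := by
  have : (n : K) = algebraMap (𝓞 K) K (n : 𝓞 K) := by simp
  rw [this]
  exact v.valuation_lt_one_iff_mem _

theorem valuation_natCast_ne_zero (v : HeightOneSpectrum (𝓞 K)) {n : ℕ} (hn : n ≠ 0) :
    v.valuation K (n : K) ≠ 0 := by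
  rw [Ne, map_eq_zero]
  exact_mod_cast hn

/-- A nonzero natural number in `v`. -/
theorem exists_nat_mem (v : HeightOneSpectrum (𝓞 K)) :
    ∃ u : ℕ, u ≠ 0 ∧ v.valuation K (u : K) < 1 := by
  refine ⟨Ideal.absNorm v.asIdeal, ?_, ?_⟩
  · rw [Ne, Ideal.absNorm_eq_zero_iff]
    exact v.ne_bot
  · rw [valuation_natCast_lt_one_iff]
    exact Ideal.absNorm_mem v.asIdeal

/-- Powers of an element of valuation `< 1` become arbitrarily small. -/
theorem exists_pow_le {x c : ℤᵐ⁰} (hx : x < 1) (hc : c ≠ 0) : ∃ e : ℕ, x ^ e ≤ c := by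
  rcases eq_or_ne x 0 with h0 | h0
  · exact ⟨1, by rw [h0, pow_one]; exact zero_le⟩
  obtain ⟨k, hk⟩ := WithZero.exists_exp_neg_natCast_lt hc
  refine ⟨k, le_trans ?_ hk.le⟩
  -- `x ≤ exp (-1)`
  have hx1 : x ≤ WithZero.exp (-1 : ℤ) := by
    rw [← WithZero.exp_log h0] at hx ⊢
    rw [← WithZero.exp_zero, WithZero.exp_lt_exp] at hx
    rw [WithZero.exp_le_exp]
    omega
  calc x ^ k ≤ (WithZero.exp (-1 : ℤ)) ^ k := pow_le_pow_left₀ zero_le hx1 k
    _ = WithZero.exp (-(k : ℤ)) := by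
        rw [← WithZero.exp_nsmul]
        simp

/-! ## The level of a base point -/

theorem natCast_absNorm_mem (𝔫 : Ideal (𝓞 K)) : ((Ideal.absNorm 𝔫 : ℕ) : 𝓞 K) ∈ 𝔫 :=
  Ideal.absNorm_mem 𝔫

theorem locLevel_of_near_nat {𝔫 : Ideal (𝓞 K)} (v : HeightOneSpectrum (𝓞 K))
    {Y : GL (Fin 2) (v.adicCompletion K)}
    (hY : Near v (v.valuation K ((Ideal.absNorm 𝔫 : ℕ) : K)) Y) : LocLevel 𝔫 v Y := by
  refine locLevel_of_near v (natCast_absNorm_mem 𝔫) ?_
  rw [map_natCast]
  exact hY

theorem valuation_le_of_dvd (v : HeightOneSpectrum (𝓞 K)) {a b : ℕ} (h : a ∣ b) :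
    v.valuation K (b : K) ≤ v.valuation K (a : K) := by
  obtain ⟨c, rfl⟩ := h
  rw [Nat.cast_mul, map_mul]
  exact mul_le_of_le_one_right' (valuation_natCast_le_one v c)

/-- **The level of a base point** `g`: a nonzero natural number `M`, divisible by the norm of `𝔫`,
such that `g` is integral outside `M` and conjugation by the components of `g` maps the matrices
which are `≡ 1 mod M` into the local level groups. -/
theorem exists_level (𝔫 : Ideal (𝓞 K)) (h𝔫 : 𝔫 ≠ ⊥) (g : G K) :
    ∃ M : ℕ, M ≠ 0 ∧ Ideal.absNorm 𝔫 ∣ M ∧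
      (∀ v : HeightOneSpectrum (𝓞 K), v.valuation K (M : K) = 1 →
        IntegralBoth v (finCompHom v g)) ∧
      ∀ (v : HeightOneSpectrum (𝓞 K)) (Y : GL (Fin 2) (v.adicCompletion K)),
        Near v (v.valuation K (M : K)) Y →
          LocLevel 𝔫 v ((finCompHom v g)⁻¹ * Y * finCompHom v g) := by
  set n₀ : ℕ := Ideal.absNorm 𝔫 with hn₀
  have hn₀0 : n₀ ≠ 0 := by
    rw [hn₀, Ne, Ideal.absNorm_eq_zero_iff]
    exact h𝔫
  have hc : ∀ v : HeightOneSpectrum (𝓞 K), ∃ c : ℤᵐ⁰, c ≠ 0 ∧ c ≤ v.valuation K (n₀ : K) ∧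
      ∀ Y : GL (Fin 2) (v.adicCompletion K), Near v c Y →
        Near v (v.valuation K (n₀ : K)) ((finCompHom v g)⁻¹ * Y * finCompHom v g) :=
    fun v => exists_near_conj v (finCompHom v g) (valuation_natCast_ne_zero v hn₀0)
  choose c hc0 hcle hcY using hc
  have key : ∀ B : Finset (HeightOneSpectrum (𝓞 K)), ∃ M : ℕ, M ≠ 0 ∧ n₀ ∣ M ∧
      ∀ v ∈ B, v.valuation K (M : K) ≤ c v ∧ v.valuation K (M : K) < 1 := by
    intro B
    induction B using Finset.induction_on with
    | empty => exact ⟨n₀, hn₀0, dvd_rfl, fun v hv => absurd hv (Finset.notMem_empty v)⟩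
    | insert v B hvB ih =>
      obtain ⟨M, hM0, hdvd, hM⟩ := ih
      obtain ⟨u, hu0, hu⟩ := exists_nat_mem v
      obtain ⟨e, he⟩ := exists_pow_le hu (hc0 v)
      refine ⟨M * u ^ (e + 1), mul_ne_zero hM0 (pow_ne_zero _ hu0), dvd_mul_of_dvd_left hdvd _,
        fun v' hv' => ?_⟩
      have hcast : ((M * u ^ (e + 1) : ℕ) : K) = (M : K) * (u : K) ^ (e + 1) := by
        push_cast; ring
      rw [hcast, map_mul, map_pow]
      rcases Finset.mem_insert.1 hv' with rfl | hv'B
      · have h1 : v'.valuation K (M : K) * v'.valuation K (u : K) ^ (e + 1)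
            ≤ v'.valuation K (u : K) ^ (e + 1) :=
          mul_le_of_le_one_left' (valuation_natCast_le_one v' M)
        have h2 : v'.valuation K (u : K) ^ (e + 1) ≤ v'.valuation K (u : K) ^ e := by
          rw [pow_succ]
          exact mul_le_of_le_one_right' hu.le
        have h3 : v'.valuation K (u : K) ^ (e + 1) ≤ v'.valuation K (u : K) := by
          rw [pow_succ']
          exact mul_le_of_le_one_right' (pow_le_one₀ zero_le hu.le)
        exact ⟨h1.trans (h2.trans he), lt_of_le_of_lt (h1.trans h3) hu⟩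
      · have h1 : v'.valuation K (M : K) * v'.valuation K (u : K) ^ (e + 1)
            ≤ v'.valuation K (M : K) :=
          mul_le_of_le_one_right' (pow_le_one₀ zero_le (valuation_natCast_le_one v' u))
        exact ⟨h1.trans (hM v' hv'B).1, lt_of_le_of_lt h1 (hM v' hv'B).2⟩
  obtain ⟨M, hM0, hdvd, hM⟩ := key (finite_not_integralBoth g).toFinset
  refine ⟨M, hM0, hdvd, fun v hv1 => ?_, fun v Y hY => ?_⟩
  · by_contra hbad
    have hv : v ∈ (finite_not_integralBoth g).toFinset := by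
      rw [Set.Finite.mem_toFinset]
      exact hbad
    exact (hM v hv).2.ne hv1
  · apply locLevel_of_near_nat
    by_cases hv : v ∈ (finite_not_integralBoth g).toFinset
    · exact hcY v Y (hY.mono (hM v hv).1)
    · have hint : IntegralBoth v (finCompHom v g) := by
        rw [Set.Finite.mem_toFinset] at hv
        by_contra h
        exact hv h
      exact near_conj_of_integralBoth hint (hY.mono (valuation_le_of_dvd v hdvd))

end Fermat.Agent.LT.H51.MS4
end
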