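import Mathlib
import Fermat.Agent.LT.H51.MS4C

set_option autoImplicit false

open IsDedekindDomain NumberField
open scoped MatrixGroups Classical WithZero

noncomputable section

namespace Fermat.Agent.LT.H51.MS4

open Fermat.Agent.LT.H556.A0 Fermat.Agent.LT.T8.H864

/-! ## Upper triangular matrices -/

section UT

variable {F : Type*} [Field F]

/-- The matrix `[[a, b], [0, d]]`. -/
def utMat (a b d : F) : Matrix (Fin 2) (Fin 2) F := !![a, b; 0, d]

theorem det_utMat (a b d : F) : (utMat a b d).det = a * d := by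
  simp [utMat, Matrix.det_fin_two]

/-- `[[a, b], [0, d]]` as an element of `GL₂(F)` (the identity if `a d = 0`). -/
def ut (a b d : F) : GL (Fin 2) F :=
  if h : a * d = 0 then 1
  else Matrix.GeneralLinearGroup.mkOfDetNeZero (utMat a b d) (by rw [det_utMat]; exact h)

theorem coe_ut {a d : F} (b : F) (ha : a ≠ 0) (hd : d ≠ 0) :
    ((ut a b d : GL (Fin 2) F) : Matrix (Fin 2) (Fin 2) F) = utMat a b d := by
  simp [ut, mul_ne_zero ha hd, Matrix.GeneralLinearGroup.mkOfDetNeZero]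

theorem ut_mul {a d a' d' : F} (b b' : F) (ha : a ≠ 0) (hd : d ≠ 0) (ha' : a' ≠ 0)
    (hd' : d' ≠ 0) : ut a b d * ut a' b' d' = ut (a * a') (a * b' + b * d') (d * d') := by
  refine Units.ext ?_
  rw [Matrix.GeneralLinearGroup.coe_mul, coe_ut b ha hd, coe_ut b' ha' hd',
    coe_ut _ (mul_ne_zero ha ha') (mul_ne_zero hd hd')]
  ext i j
  fin_cases i <;> fin_cases j <;> simp [utMat, Matrix.mul_apply, Fin.sum_univ_two]

theorem ut_one : ut (1 : F) 0 1 = 1 := by
  refine Units.ext ?_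
  rw [coe_ut 0 one_ne_zero one_ne_zero]
  ext i j
  fin_cases i <;> fin_cases j <;> simp [utMat]

theorem ut_inv {a d : F} (b : F) (ha : a ≠ 0) (hd : d ≠ 0) :
    (ut a b d)⁻¹ = ut a⁻¹ (-(b / (a * d))) d⁻¹ := by
  rw [inv_eq_iff_mul_eq_one, ut_mul b _ ha hd (inv_ne_zero ha) (inv_ne_zero hd)]
  have e1 : a * a⁻¹ = 1 := mul_inv_cancel₀ ha
  have e2 : d * d⁻¹ = 1 := mul_inv_cancel₀ hd
  have e3 : a * -(b / (a * d)) + b * d⁻¹ = 0 := by field_simp; ring
  rw [e1, e2, e3, ut_one]

theorem map_ut {F' : Type*} [Field F'] (f : F →+* F') {a d : F} (b : F) (ha : a ≠ 0)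
    (hd : d ≠ 0) : Matrix.GeneralLinearGroup.map f (ut a b d) = ut (f a) (f b) (f d) := by
  refine Units.ext ?_
  have ha' : f a ≠ 0 := by rwa [Ne, map_eq_zero]
  have hd' : f d ≠ 0 := by rwa [Ne, map_eq_zero]
  rw [coe_ut _ ha' hd']
  change ((ut a b d : GL (Fin 2) F) : Matrix (Fin 2) (Fin 2) F).map f = _
  rw [coe_ut b ha hd]
  ext i j
  fin_cases i <;> fin_cases j <;> simp [utMat]

/-- Scalar matrices are central. -/
theorem ut_scalar_comm {r : F} (hr : r ≠ 0) (m : GL (Fin 2) F) :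
    ut r 0 r * m = m * ut r 0 r := by
  refine Units.ext ?_
  rw [Matrix.GeneralLinearGroup.coe_mul, Matrix.GeneralLinearGroup.coe_mul, coe_ut 0 hr hr]
  ext i j
  fin_cases i <;> fin_cases j <;> simp [utMat, Matrix.mul_apply, Fin.sum_univ_two, mul_comm]

end UT

theorem bGL_eq_ut (x : ℝ) {y : ℝ} (hy : y ≠ 0) : bGL x y = ut y x 1 := by
  refine Units.ext ?_
  rw [coe_bGL x hy, coe_ut x hy one_ne_zero]
  rfl

/-! ## Nearness of upper triangular matrices -/

section NearUT

variable {K : Type} [Field K] [NumberField K]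

theorem near_ut {v : HeightOneSpectrum (𝓞 K)} {c : ℤᵐ⁰} {a b d : v.adicCompletion K}
    (ha1 : Valued.v a = 1) (hd1 : Valued.v d = 1) (ha : Valued.v (a - 1) ≤ c)
    (hb : Valued.v b ≤ c) (hd : Valued.v (d - 1) ≤ c) : Near v c (ut a b d) := by
  have ha0 : a ≠ 0 := by
    intro h; rw [h, map_zero] at ha1; exact zero_ne_one ha1
  have hd0 : d ≠ 0 := by
    intro h; rw [h, map_zero] at hd1; exact zero_ne_one hd1
  have hai : Valued.v (a⁻¹ - 1) ≤ c := by
    have e : a⁻¹ - 1 = (1 - a) / a := by field_simp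
    rw [e, map_div₀, ha1, div_one, Valuation.map_sub_swap]
    exact ha
  have hdi : Valued.v (d⁻¹ - 1) ≤ c := by
    have e : d⁻¹ - 1 = (1 - d) / d := by field_simp
    rw [e, map_div₀, hd1, div_one, Valuation.map_sub_swap]
    exact hd
  have hbi : Valued.v (-(b / (a * d))) ≤ c := by
    rw [Valuation.map_neg, map_div₀, map_mul, ha1, hd1, mul_one, div_one]
    exact hb
  intro i j
  constructor
  · rw [coe_ut b ha0 hd0]
    fin_cases i <;> fin_cases j <;> simp [utMat] <;> assumption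
  · rw [ut_inv b ha0 hd0, coe_ut _ (inv_ne_zero ha0) (inv_ne_zero hd0)]
    fin_cases i <;> fin_cases j <;> simp [utMat] <;> first | assumption | skip
    all_goals
      rw [Valuation.map_neg, map_div₀, map_mul, ha1, hd1, mul_one, div_one] at hbi
      simpa [ha1, hd1] using hbi

theorem near_ratFin_ut {v : HeightOneSpectrum (𝓞 K)} {c : ℤᵐ⁰} {a b d : K}
    (ha1 : v.valuation K a = 1) (hd1 : v.valuation K d = 1)
    (ha : v.valuation K (a - 1) ≤ c) (hb : v.valuation K b ≤ c)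
    (hd : v.valuation K (d - 1) ≤ c) : Near v c (ratFin v (ut a b d)) := by
  have ha0 : a ≠ 0 := by
    intro h; rw [h, map_zero] at ha1; exact zero_ne_one ha1
  have hd0 : d ≠ 0 := by
    intro h; rw [h, map_zero] at hd1; exact zero_ne_one hd1
  rw [ratFin, map_ut _ b ha0 hd0]
  refine near_ut ?_ ?_ ?_ ?_ ?_
  · rw [valued_algebraMap]; exact ha1
  · rw [valued_algebraMap]; exact hd1
  · rw [← map_one (algebraMap K (v.adicCompletion K)), ← map_sub, valued_algebraMap]; exact ha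
  · rw [valued_algebraMap]; exact hb
  · rw [← map_one (algebraMap K (v.adicCompletion K)), ← map_sub, valued_algebraMap]; exact hd

/-- Coprimality: a natural number prime to `M` is a unit at the places dividing `M`. -/
theorem valuation_eq_one_of_coprime (v : HeightOneSpectrum (𝓞 K)) {k M : ℕ}
    (hk : Nat.Coprime k M) (hM : v.valuation K (M : K) < 1) : v.valuation K (k : K) = 1 := by
  refine le_antisymm (valuation_natCast_le_one v k) ?_
  by_contra hlt
  rw [not_le] at hlt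
  rw [valuation_natCast_lt_one_iff] at hM hlt
  have hco : IsCoprime (k : ℤ) (M : ℤ) := Nat.isCoprime_iff_coprime.2 hk
  obtain ⟨a, b, hab⟩ := hco
  have h1 : ((a : 𝓞 K)) * (k : 𝓞 K) + (b : 𝓞 K) * (M : 𝓞 K) = 1 := by
    have := congrArg (fun z : ℤ => (z : 𝓞 K)) hab
    simpa using this
  have h2 : (1 : 𝓞 K) ∈ v.asIdeal := by
    rw [← h1]
    exact v.asIdeal.add_mem (v.asIdeal.mul_mem_left _ hlt) (v.asIdeal.mul_mem_left _ hM)
  exact v.isPrime.ne_top ((Ideal.eq_top_iff_one _).2 h2)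

end NearUT

/-! ## The places of `ℚ` -/

/-- The place of `ℚ` over the prime `p`. -/
def vP (p : ℕ) (hp : p.Prime) : HeightOneSpectrum (𝓞 ℚ) :=
  Rat.HeightOneSpectrum.primesEquiv.symm ⟨p, hp⟩

theorem natCast_mem_iff (v : HeightOneSpectrum (𝓞 ℚ)) (n : ℕ) :
    (n : 𝓞 ℚ) ∈ v.asIdeal ↔ Rat.HeightOneSpectrum.natGenerator v ∣ n := by
  rw [Rat.HeightOneSpectrum.natGenerator_dvd_iff,
    ← Ideal.apply_mem_of_equiv_iff (f := Rat.IsIntegralClosure.intEquiv (𝓞 ℚ)), map_natCast]

theorem natGenerator_vP (p : ℕ) (hp : p.Prime) :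
    Rat.HeightOneSpectrum.natGenerator (vP p hp) = p :=
  congrArg Subtype.val
    (Equiv.apply_symm_apply (Rat.HeightOneSpectrum.primesEquiv (R := 𝓞 ℚ)) ⟨p, hp⟩)

theorem eq_vP_of_natGenerator {v : HeightOneSpectrum (𝓞 ℚ)} {p : ℕ} (hp : p.Prime)
    (h : Rat.HeightOneSpectrum.natGenerator v = p) : v = vP p hp := by
  have h1 : Rat.HeightOneSpectrum.primesEquiv v = (⟨p, hp⟩ : Nat.Primes) := Subtype.ext h
  exact (Equiv.eq_symm_apply _).2 h1

/-- A prime is a unit at the other places. -/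
theorem valuation_prime_eq_one {v : HeightOneSpectrum (𝓞 ℚ)} {p : ℕ} (hp : p.Prime)
    (hv : v ≠ vP p hp) : v.valuation ℚ (p : ℚ) = 1 := by
  refine le_antisymm (valuation_natCast_le_one v p) ?_
  by_contra hlt
  rw [not_le, valuation_natCast_lt_one_iff, natCast_mem_iff] at hlt
  apply hv
  apply eq_vP_of_natGenerator hp
  exact (Nat.prime_dvd_prime_iff_eq (Rat.HeightOneSpectrum.prime_natGenerator v) hp).1 hlt

theorem valuation_prime_lt_one (p : ℕ) (hp : p.Prime) :
    (vP p hp).valuation ℚ (p : ℚ) < 1 := by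
  rw [valuation_natCast_lt_one_iff, natCast_mem_iff, natGenerator_vP]

/-- The real place of `ℚ`. -/
abbrev wQ : InfinitePlace ℚ := Rat.infinitePlace

theorem wQ_isReal : (wQ).IsReal := Rat.isReal_infinitePlace

end Fermat.Agent.LT.H51.MS4
end
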