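import Mathlib
import Fermat.Agent.LT.H51.MS4D

/-!
# Row LT, tower T8, sub-leaf `HoroC` (MS4b, ADELIC), part E (helper51, sub-architect): SPEC

OFF-MAIN.  On `A0.lean` (556), `T8/H864/Local.lean` (864) and `H51/MS4{A,B,C,D}.lean`.

The ONLY inputs of `HoroC` that are not proved in `H51/MS4*.lean`:

* `HeckeSumQ π φ`   -- the `T_p`-clause of `A0.IsHeckeEigenAt` for the explicit coset system
  `{[[p, -jM], [0, 1]]_p : j < p} ∪ {[[1, 0], [0, p]]_p}` (representatives `≡ 0 mod M`);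
* `HeckeScalarQ π φ` -- the `S_p`-clause for the scalar `[[p, 0], [0, p]]_p`.

Both are immediate from MS3 (`T8/H864/Coset.lean`: `isHeckeCosetSystem_rat`,
`isScalarUniformizerAt_triAd`) once `absNorm (vP p).asIdeal = p` is known.

Vocabulary: `ut a b d = [[a, b], [0, d]] ∈ GL₂(F)` (`MS4D`), `vP p hp` = the place of `ℚ` over `p`
(`MS4D`), `locFinK v γ` = the element with component `γ` at `v` (`Local.lean`).
-/

set_option autoImplicit false

open IsDedekindDomain NumberField AutomorphicForm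
open scoped MatrixGroups Classical WithZero

noncomputable section

namespace Fermat.Agent.LT.H51.MS4

open Fermat.Agent.LT.H556.A0 Fermat.Agent.LT.T8.H864

/-- **Leaf HECKE-SUM (raw).**  The `T_p`-eigenvalue equation on the explicit coset system with
representatives `-jM`, `j < p`. -/
def HeckeSumQ (π : HeckeEigensystem ℚ ℂ) (φ : G ℚ → ℂ) : Prop :=
  ∀ (p : ℕ) (hp : p.Prime), ¬ (vP p hp).asIdeal ∣ π.level → ∀ M : ℕ, ¬ p ∣ M → ∀ g : G ℚ,
    ∑ j ∈ Finset.range p, φ (g * locFinK (vP p hp) (ut (p : ℚ) (-((j : ℚ) * (M : ℚ))) 1))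
      + φ (g * locFinK (vP p hp) (ut (1 : ℚ) 0 (p : ℚ)))
    = ((Real.sqrt (p : ℝ) : ℝ) : ℂ) * π.a (vP p hp) * φ g

/-- **Leaf HECKE-SCALAR (raw).**  The `S_p`-eigenvalue equation for the scalar `p` at `p`. -/
def HeckeScalarQ (π : HeckeEigensystem ℚ ℂ) (φ : G ℚ → ℂ) : Prop :=
  ∀ (p : ℕ) (hp : p.Prime), ¬ (vP p hp).asIdeal ∣ π.level → ∀ g : G ℚ,
    φ (g * locFinK (vP p hp) (ut (p : ℚ) 0 (p : ℚ))) = π.b (vP p hp) * φ g

/-- **Leaf HECKE-RAW** = both clauses, for every cusp form of `A0`. -/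
def HeckeRawC : Prop :=
  ∀ (π : HeckeEigensystem ℚ ℂ) (φ : G ℚ → ℂ), IsSph0CuspFormFor π φ →
    HeckeSumQ π φ ∧ HeckeScalarQ π φ

end Fermat.Agent.LT.H51.MS4

end
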